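import Mathlib
import Fermat.Prelude.Def_GaloisRep_DeformationCondition
import Fermat.Agent.S53.Spec

/-!
# S53, block C5 (helper354)

For an Artinian test algebra `B` over `𝒪` and a proper `𝒪`-subalgebra `B' ≠ ⊤` there are two
distinct `𝒪`-algebra homomorphisms `B → k[ε]` which agree on `B'`.
-/

set_option autoImplicit false
set_option linter.unusedSectionVars false
set_option linter.style.haveILetI false

namespace Fermat.Agent.S53.H354

open IsLocalRing

variable {𝒪 : Type} [CommRing 𝒪] [IsLocalRing 𝒪]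
variable {B : Type} [CommRing B] [IsLocalRing B] [Algebra 𝒪 B]

/-- Every element of a test algebra is congruent to a constant modulo the maximal ideal. -/
theorem exists_algebraMap_sub_mem (hB : GaloisRep.IsArtinianTestAlgebra 𝒪 B) (b : B) :
    ∃ a : 𝒪, b - algebraMap 𝒪 B a ∈ maximalIdeal B := by
  obtain ⟨a, ha⟩ := hB.residue_surjective (residue B b)
  refine ⟨a, ?_⟩
  rw [← residue_eq_zero_iff, map_sub, sub_eq_zero]
  exact ha.symm

/-- Constants from the maximal ideal of `𝒪` land in the maximal ideal of `B`. -/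
theorem algebraMap_mem_maximalIdeal (hB : GaloisRep.IsArtinianTestAlgebra 𝒪 B) {a : 𝒪}
    (ha : a ∈ maximalIdeal 𝒪) : algebraMap 𝒪 B a ∈ maximalIdeal B := by
  haveI := hB.isLocalHom
  rw [mem_maximalIdeal, mem_nonunits_iff] at ha ⊢
  exact fun h => ha (isUnit_of_map_unit (algebraMap 𝒪 B) a h)

/-- The maximal ideal of a test algebra is nilpotent. -/
theorem exists_maximalIdeal_pow_eq_bot (hB : GaloisRep.IsArtinianTestAlgebra 𝒪 B) :
    ∃ n : ℕ, maximalIdeal B ^ n = ⊥ := by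
  haveI := hB.isArtinian
  have h := IsArtinianRing.isNilpotent_jacobson_bot (R := B)
  rw [IsLocalRing.jacobson_eq_maximalIdeal ⊥ bot_ne_top] at h
  exact h

/-- Nakayama-type step: if `B = B' + m²` then `m^j ⊆ B' + m^(j+1)` for all `j`. -/
theorem exists_mem_sub_mem_pow_succ (B' : Subalgebra 𝒪 B)
    (h : ∀ x : B, ∃ b ∈ B', x - b ∈ maximalIdeal B ^ 2) (j : ℕ) :
    ∀ x ∈ maximalIdeal B ^ j, ∃ b ∈ B', x - b ∈ maximalIdeal B ^ (j + 1) := by
  induction j with
  | zero =>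
    intro x _
    obtain ⟨b, hb, hxb⟩ := h x
    exact ⟨b, hb, Ideal.pow_le_pow_right (by norm_num) hxb⟩
  | succ j ih =>
    intro x hx
    rw [pow_succ] at hx
    refine Submodule.mul_induction_on hx ?_ ?_
    · intro μ hμ ν hν
      obtain ⟨b₁, hb₁, hs₁⟩ := ih μ hμ
      obtain ⟨b₂, hb₂, hs₂⟩ := h ν
      refine ⟨b₁ * b₂, B'.mul_mem hb₁ hb₂, ?_⟩
      have hb₁' : b₁ ∈ maximalIdeal B ^ j := by
        have : b₁ = μ - (μ - b₁) := by ring
        rw [this]
        exact Ideal.sub_mem _ hμ (Ideal.pow_le_pow_right (Nat.le_succ j) hs₁)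
      have e : μ * ν - b₁ * b₂ = b₁ * (ν - b₂) + (μ - b₁) * ν := by ring
      rw [e]
      refine Ideal.add_mem _ ?_ ?_
      · have : maximalIdeal B ^ (j + 1 + 1) = maximalIdeal B ^ j * maximalIdeal B ^ 2 := by
          rw [← pow_add]
        rw [this]
        exact Ideal.mul_mem_mul hb₁' hs₂
      · rw [pow_succ (maximalIdeal B) (j + 1)]
        exact Ideal.mul_mem_mul hs₁ hν
    · intro x y ⟨b₁, hb₁, h₁⟩ ⟨b₂, hb₂, h₂⟩
      refine ⟨b₁ + b₂, B'.add_mem hb₁ hb₂, ?_⟩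
      have e : x + y - (b₁ + b₂) = (x - b₁) + (y - b₂) := by ring
      rw [e]
      exact Ideal.add_mem _ h₁ h₂

/-- If `B = B' + m²` for a subalgebra `B'` of a test algebra `B`, then `B' = ⊤`. -/
theorem subalgebra_eq_top_of_forall (hB : GaloisRep.IsArtinianTestAlgebra 𝒪 B)
    (B' : Subalgebra 𝒪 B) (h : ∀ x : B, ∃ b ∈ B', x - b ∈ maximalIdeal B ^ 2) : B' = ⊤ := by
  have key : ∀ j : ℕ, ∀ x : B, ∃ b ∈ B', x - b ∈ maximalIdeal B ^ j := by
    intro j
    induction j with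
    | zero => intro x; exact ⟨0, B'.zero_mem, by simp⟩
    | succ j ih =>
      intro x
      obtain ⟨b₁, hb₁, h₁⟩ := ih x
      obtain ⟨b₂, hb₂, h₂⟩ := exists_mem_sub_mem_pow_succ B' h j (x - b₁) h₁
      refine ⟨b₁ + b₂, B'.add_mem hb₁ hb₂, ?_⟩
      have e : x - (b₁ + b₂) = x - b₁ - b₂ := by ring
      rw [e]; exact h₂
  obtain ⟨n, hn⟩ := exists_maximalIdeal_pow_eq_bot hB
  rw [eq_top_iff]
  intro x _
  obtain ⟨b, hb, hxb⟩ := key n x
  rw [hn, Ideal.mem_bot, sub_eq_zero] at hxb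
  rw [hxb]; exact hb

/-- The `𝒪`-submodule `B' + m²` of `B`. -/
def subU (B' : Subalgebra 𝒪 B) : Submodule 𝒪 B :=
  Subalgebra.toSubmodule B' ⊔ (maximalIdeal B ^ 2).restrictScalars 𝒪

theorem mem_subU_of_mem {B' : Subalgebra 𝒪 B} {x : B} (hx : x ∈ B') : x ∈ subU B' :=
  Submodule.mem_sup_left hx

theorem mem_subU_of_mem_sq {B' : Subalgebra 𝒪 B} {x : B} (hx : x ∈ maximalIdeal B ^ 2) :
    x ∈ subU B' :=
  Submodule.mem_sup_right hx

theorem subU_ne_top (hB : GaloisRep.IsArtinianTestAlgebra 𝒪 B) (B' : Subalgebra 𝒪 B)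
    (hB' : B' ≠ ⊤) : subU B' ≠ ⊤ := by
  intro h
  apply hB'
  apply subalgebra_eq_top_of_forall hB
  intro x
  have hx : x ∈ subU B' := h ▸ Submodule.mem_top
  obtain ⟨b, hb, s, hs, rfl⟩ := Submodule.mem_sup.mp hx
  exact ⟨b, hb, by simpa using hs⟩

theorem smul_mem_subU (hB : GaloisRep.IsArtinianTestAlgebra 𝒪 B) (B' : Subalgebra 𝒪 B)
    {a : 𝒪} (ha : a ∈ maximalIdeal 𝒪) (b : B) : a • b ∈ subU B' := by
  obtain ⟨c, hc⟩ := exists_algebraMap_sub_mem hB b
  have e : a • b = algebraMap 𝒪 B (a * c) + algebraMap 𝒪 B a * (b - algebraMap 𝒪 B c) := by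
    rw [Algebra.smul_def, map_mul]; ring
  rw [e]
  refine Submodule.add_mem _ (mem_subU_of_mem (B'.algebraMap_mem _)) (mem_subU_of_mem_sq ?_)
  rw [pow_two]
  exact Ideal.mul_mem_mul (algebraMap_mem_maximalIdeal hB ha) hc

theorem isTorsionBySet_quotient (hB : GaloisRep.IsArtinianTestAlgebra 𝒪 B)
    (B' : Subalgebra 𝒪 B) :
    Module.IsTorsionBySet 𝒪 (B ⧸ subU B') (maximalIdeal 𝒪 : Set 𝒪) := by
  intro x a
  obtain ⟨b, rfl⟩ := Submodule.Quotient.mk_surjective _ x
  rw [← Submodule.Quotient.mk_smul, Submodule.Quotient.mk_eq_zero]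
  exact smul_mem_subU hB B' a.2 b

/-- The key functional: an `𝒪`-linear map `B → k` vanishing on `B' + m²` but not identically. -/
theorem exists_functional (hB : GaloisRep.IsArtinianTestAlgebra 𝒪 B) (B' : Subalgebra 𝒪 B)
    (hB' : B' ≠ ⊤) :
    ∃ d : B →ₗ[𝒪] ResidueField 𝒪, (∀ x ∈ B', d x = 0) ∧
      (∀ x ∈ maximalIdeal B ^ 2, d x = 0) ∧ ∃ x₀, d x₀ ≠ 0 := by
  obtain ⟨x₀, hx₀⟩ : ∃ x₀ : B, x₀ ∉ subU B' := by
    by_contra hcon
    exact subU_ne_top hB B' hB'
      (eq_top_iff.mpr fun x _ => by_contra fun hx => hcon ⟨x, hx⟩)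
  letI : Module (ResidueField 𝒪) (B ⧸ subU B') := (isTorsionBySet_quotient hB B').module
  have hne : (Submodule.Quotient.mk x₀ : B ⧸ subU B') ≠ 0 := by
    rwa [Ne, Submodule.Quotient.mk_eq_zero]
  obtain ⟨f, hf⟩ := Module.Projective.exists_dual_ne_zero (ResidueField 𝒪) hne
  refine ⟨{ toFun := fun b => f (Submodule.Quotient.mk b)
            map_add' := fun x y => by rw [Submodule.Quotient.mk_add, map_add]
            map_smul' := fun a b => ?_ }, ?_, ?_, x₀, hf⟩
  · have h1 : (Submodule.Quotient.mk (a • b) : B ⧸ subU B') =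
        (residue 𝒪 a) • (Submodule.Quotient.mk b : B ⧸ subU B') := rfl
    rw [h1, map_smul, RingHom.id_apply, smul_eq_mul, Algebra.smul_def a,
      ResidueField.algebraMap_eq]
  · intro x hx
    have : (Submodule.Quotient.mk x : B ⧸ subU B') = 0 :=
      (Submodule.Quotient.mk_eq_zero _).mpr (mem_subU_of_mem hx)
    show f (Submodule.Quotient.mk x) = 0
    rw [this, map_zero]
  · intro x hx
    have : (Submodule.Quotient.mk x : B ⧸ subU B') = 0 :=
      (Submodule.Quotient.mk_eq_zero _).mpr (mem_subU_of_mem_sq hx)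
    show f (Submodule.Quotient.mk x) = 0
    rw [this, map_zero]

/-- The residue fields of `𝒪` and of a test algebra `B` are identified. -/
noncomputable def resEquiv (hB : GaloisRep.IsArtinianTestAlgebra 𝒪 B) :
    ResidueField 𝒪 ≃+* ResidueField B :=
  haveI := hB.isLocalHom
  RingEquiv.ofBijective (ResidueField.map (algebraMap 𝒪 B))
    ⟨(ResidueField.map (algebraMap 𝒪 B)).injective, fun y => by
      obtain ⟨b, rfl⟩ := IsLocalRing.residue_surjective y
      obtain ⟨a, ha⟩ := hB.residue_surjective (residue B b)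
      exact ⟨residue 𝒪 a, by rw [ResidueField.map_residue]; exact ha⟩⟩

/-- The residue map `B → k = ResidueField 𝒪` of a test algebra. -/
noncomputable def resk (hB : GaloisRep.IsArtinianTestAlgebra 𝒪 B) : B →+* ResidueField 𝒪 :=
  ((resEquiv hB).symm : ResidueField B →+* ResidueField 𝒪).comp (residue B)

theorem resk_algebraMap (hB : GaloisRep.IsArtinianTestAlgebra 𝒪 B) (a : 𝒪) :
    resk hB (algebraMap 𝒪 B a) = residue 𝒪 a := by
  haveI := hB.isLocalHom
  show (resEquiv hB).symm (residue B (algebraMap 𝒪 B a)) = residue 𝒪 a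
  rw [RingEquiv.symm_apply_eq]
  show _ = ResidueField.map (algebraMap 𝒪 B) (residue 𝒪 a)
  rw [ResidueField.map_residue]

theorem resk_eq_zero (hB : GaloisRep.IsArtinianTestAlgebra 𝒪 B) {x : B}
    (hx : x ∈ maximalIdeal B) : resk hB x = 0 := by
  show (resEquiv hB).symm (residue B x) = 0
  rw [(residue_eq_zero_iff x).mpr hx, map_zero]

/-- Leibniz rule: an `𝒪`-linear functional killing `1` and `m²` is a derivation. -/
theorem functional_mul (hB : GaloisRep.IsArtinianTestAlgebra 𝒪 B)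
    (d : B →ₗ[𝒪] ResidueField 𝒪) (h1 : d 1 = 0)
    (h2 : ∀ x ∈ maximalIdeal B ^ 2, d x = 0) (x y : B) :
    d (x * y) = resk hB x * d y + resk hB y * d x := by
  obtain ⟨a, ha⟩ := exists_algebraMap_sub_mem hB x
  obtain ⟨a', ha'⟩ := exists_algebraMap_sub_mem hB y
  have hconst : ∀ c : 𝒪, d (algebraMap 𝒪 B c) = 0 := fun c => by
    rw [Algebra.algebraMap_eq_smul_one, map_smul, h1, smul_zero]
  have hsmul : ∀ (c : 𝒪) (z : ResidueField 𝒪), c • z = residue 𝒪 c * z := fun c z => by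
    rw [Algebra.smul_def, ResidueField.algebraMap_eq]
  have hx : resk hB x = residue 𝒪 a := by
    have : x = algebraMap 𝒪 B a + (x - algebraMap 𝒪 B a) := by ring
    rw [this, map_add, resk_algebraMap, resk_eq_zero hB ha, add_zero]
  have hy : resk hB y = residue 𝒪 a' := by
    have : y = algebraMap 𝒪 B a' + (y - algebraMap 𝒪 B a') := by ring
    rw [this, map_add, resk_algebraMap, resk_eq_zero hB ha', add_zero]
  have hdx : d (x - algebraMap 𝒪 B a) = d x := by rw [map_sub, hconst, sub_zero]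
  have e : x * y = a • y + a' • (x - algebraMap 𝒪 B a) +
      (x - algebraMap 𝒪 B a) * (y - algebraMap 𝒪 B a') := by
    rw [Algebra.smul_def, Algebra.smul_def]; ring
  have hsq : (x - algebraMap 𝒪 B a) * (y - algebraMap 𝒪 B a') ∈ maximalIdeal B ^ 2 := by
    rw [pow_two]; exact Ideal.mul_mem_mul ha ha'
  rw [e, map_add, map_add, map_smul, map_smul, h2 _ hsq, add_zero, hdx, hsmul, hsmul, hx, hy]

/-- The ring homomorphism `b ↦ res b + d b · ε` attached to a functional `d` killing `1`, `m²`. -/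
noncomputable def dualNumberRingHom (hB : GaloisRep.IsArtinianTestAlgebra 𝒪 B)
    (d : B →ₗ[𝒪] ResidueField 𝒪) (h1 : d 1 = 0)
    (h2 : ∀ x ∈ maximalIdeal B ^ 2, d x = 0) : B →+* DualNumber (ResidueField 𝒪) where
  toFun b := TrivSqZeroExt.inl (resk hB b) + TrivSqZeroExt.inr (d b)
  map_one' := by
    rw [map_one, h1, TrivSqZeroExt.inr_zero, add_zero, TrivSqZeroExt.inl_one]
  map_mul' x y := by
    rw [functional_mul hB d h1 h2 x y]
    ext
    · simp
    · simp [mul_comm]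
  map_zero' := by
    rw [map_zero, map_zero, TrivSqZeroExt.inr_zero, add_zero, TrivSqZeroExt.inl_zero]
  map_add' x y := by
    rw [map_add, map_add, TrivSqZeroExt.inl_add, TrivSqZeroExt.inr_add]
    abel

theorem dualNumberRingHom_apply (hB : GaloisRep.IsArtinianTestAlgebra 𝒪 B)
    (d : B →ₗ[𝒪] ResidueField 𝒪) (h1 : d 1 = 0)
    (h2 : ∀ x ∈ maximalIdeal B ^ 2, d x = 0) (b : B) :
    dualNumberRingHom hB d h1 h2 b = TrivSqZeroExt.inl (resk hB b) + TrivSqZeroExt.inr (d b) :=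
  rfl

/-- The `𝒪`-algebra homomorphism `b ↦ res b + d b · ε` (target algebra structure:
`Spec.dualNumberAlgebra 𝒪`). -/
noncomputable def dualNumberAlgHom (hB : GaloisRep.IsArtinianTestAlgebra 𝒪 B)
    (d : B →ₗ[𝒪] ResidueField 𝒪) (h1 : d 1 = 0)
    (h2 : ∀ x ∈ maximalIdeal B ^ 2, d x = 0) :
    letI := Spec.dualNumberAlgebra 𝒪
    B →ₐ[𝒪] DualNumber (ResidueField 𝒪) :=
  letI := Spec.dualNumberAlgebra 𝒪
  { dualNumberRingHom hB d h1 h2 with
    commutes' := fun a => by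
      show dualNumberRingHom hB d h1 h2 (algebraMap 𝒪 B a) =
        algebraMap (ResidueField 𝒪) (DualNumber (ResidueField 𝒪))
          (algebraMap 𝒪 (ResidueField 𝒪) a)
      rw [dualNumberRingHom_apply, resk_algebraMap, Algebra.algebraMap_eq_smul_one a,
        map_smul, h1, smul_zero, TrivSqZeroExt.inr_zero, add_zero,
        TrivSqZeroExt.algebraMap_eq_inl, ResidueField.algebraMap_eq] }

theorem dualNumberAlgHom_apply (hB : GaloisRep.IsArtinianTestAlgebra 𝒪 B)
    (d : B →ₗ[𝒪] ResidueField 𝒪) (h1 : d 1 = 0)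
    (h2 : ∀ x ∈ maximalIdeal B ^ 2, d x = 0) (b : B) :
    letI := Spec.dualNumberAlgebra 𝒪
    dualNumberAlgHom hB d h1 h2 b =
      TrivSqZeroExt.inl (resk hB b) + TrivSqZeroExt.inr (d b) :=
  rfl

/-- **Block C5.** For a test algebra `B` and a proper `𝒪`-subalgebra `B' ≠ ⊤` there are two
distinct `𝒪`-algebra homomorphisms `B → k[ε]` agreeing on `B'`. -/
theorem exists_algHom_dualNumber_ne (hB : GaloisRep.IsArtinianTestAlgebra 𝒪 B)
    (B' : Subalgebra 𝒪 B) (hB' : B' ≠ ⊤) :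
    letI := Spec.dualNumberAlgebra 𝒪
    ∃ ψ ψ' : B →ₐ[𝒪] DualNumber (ResidueField 𝒪), ψ ≠ ψ' ∧ ∀ b ∈ B', ψ b = ψ' b := by
  letI := Spec.dualNumberAlgebra 𝒪
  obtain ⟨d, hd1, hd2, x₀, hx₀⟩ := exists_functional hB B' hB'
  refine ⟨dualNumberAlgHom hB 0 rfl (fun _ _ => rfl),
    dualNumberAlgHom hB d (hd1 1 B'.one_mem) hd2, ?_, ?_⟩
  · intro h
    apply hx₀
    have := congrArg (fun ψ : B →ₐ[𝒪] DualNumber (ResidueField 𝒪) => (ψ x₀).snd) h
    simpa [dualNumberAlgHom_apply] using this.symm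
  · intro b hb
    rw [dualNumberAlgHom_apply, dualNumberAlgHom_apply, hd1 b hb]
    rfl

end Fermat.Agent.S53.H354
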